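/-
P-S48 (Deligne-Serre), DS0 glue (helper16): the "cleaning" lemma.  Mathlib only.

`V` a complex vector space with a linear map `q` to sequences which is spanned by vectors with
integer sequences (in the application `V = S₁(Γ₁(N))` with its integral structure).  Then for every
`ℚ`-linear map `μ : ℂ → ℂ` with algebraic values and every `v : V`, the sequence `μ (q v n)` has
bounded denominators.  Applied to an `algebraicClosure ℚ ℂ`-linear retraction `μ` of `ℂ` onto the
algebraic numbers, this replaces the (possibly transcendental) coefficients of a form by algebraic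
ones without changing the algebraic coefficients and without destroying linear relations with
algebraic coefficients.
-/
import Mathlib

set_option autoImplicit false

namespace Fermat.Agent.S48x.DS0

/-- Bounded denominators after applying a `ℚ`-linear map with algebraic values. -/
theorem exists_denominator_of_span {V : Type*} [AddCommGroup V] [Module ℂ V]
    (q : V →ₗ[ℂ] (ℕ → ℂ))
    (hint : Submodule.span ℂ {v : V | ∀ n, ∃ m : ℤ, q v n = m} = ⊤) (v : V)
    (μ : ℂ →ₗ[ℚ] ℂ) (hμ : ∀ z, IsAlgebraic ℚ (μ z)) :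
    ∃ D : ℤ, D ≠ 0 ∧ ∀ n, IsIntegral ℤ ((D : ℂ) * μ (q v n)) := by
  have hv : v ∈ Submodule.span ℂ {v : V | ∀ n, ∃ m : ℤ, q v n = m} := by
    rw [hint]
    exact Submodule.mem_top
  revert μ
  induction hv using Submodule.span_induction with
  | mem v hv =>
    intro μ hμ
    have halg : IsAlgebraic ℤ (μ 1) := (IsFractionRing.isAlgebraic_iff ℤ ℚ ℂ).mpr (hμ 1)
    obtain ⟨D, hD, hy⟩ := halg.exists_integral_multiple
    refine ⟨D, hD, fun n => ?_⟩
    obtain ⟨m, hm⟩ := hv n
    have h1 : μ (q v n) = (m : ℂ) * μ 1 := by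
      rw [hm]
      have : ((m : ℂ)) = m • (1 : ℂ) := by simp
      rw [this, map_zsmul, zsmul_eq_mul]
      simp
    rw [h1]
    have h2 : (D : ℂ) * ((m : ℂ) * μ 1) = (m : ℂ) * ((D : ℂ) * μ 1) := by ring
    rw [h2]
    refine isIntegral_algebraMap.mul ?_
    rwa [zsmul_eq_mul] at hy
  | zero =>
    intro μ _
    exact ⟨1, one_ne_zero, fun n => by simpa using isIntegral_zero⟩
  | add v w _ _ ihv ihw =>
    intro μ hμ
    obtain ⟨D1, hD1, h1⟩ := ihv μ hμ
    obtain ⟨D2, hD2, h2⟩ := ihw μ hμ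
    refine ⟨D1 * D2, mul_ne_zero hD1 hD2, fun n => ?_⟩
    have : ((D1 * D2 : ℤ) : ℂ) * μ (q (v + w) n) =
        (D2 : ℂ) * ((D1 : ℂ) * μ (q v n)) + (D1 : ℂ) * ((D2 : ℂ) * μ (q w n)) := by
      rw [map_add, Pi.add_apply, map_add]
      push_cast
      ring
    rw [this]
    exact (isIntegral_algebraMap.mul (h1 n)).add (isIntegral_algebraMap.mul (h2 n))
  | smul c v _ ih =>
    intro μ hμ
    obtain ⟨D, hD, h⟩ := ih (μ ∘ₗ LinearMap.mulLeft ℚ c) (fun z => hμ _)
    refine ⟨D, hD, fun n => ?_⟩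
    have := h n
    simpa only [LinearMap.comp_apply, LinearMap.mulLeft_apply, map_smul, Pi.smul_apply,
      smul_eq_mul] using this

/-- A retraction of `ℂ` onto the algebraic numbers which is linear over the algebraic numbers. -/
theorem exists_algebraic_retraction :
    ∃ μ : ℂ →ₗ[ℚ] ℂ, (∀ z, IsAlgebraic ℚ (μ z)) ∧ (∀ z, IsAlgebraic ℚ z → μ z = z) ∧
      ∀ ℓ z, IsAlgebraic ℚ ℓ → μ (ℓ * z) = ℓ * μ z := by
  let L : IntermediateField ℚ ℂ := algebraicClosure ℚ ℂ
  let f : L →ₗ[L] ℂ := Algebra.linearMap L ℂ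
  have hf : LinearMap.ker f = ⊥ :=
    LinearMap.ker_eq_bot_of_injective (algebraMap L ℂ).injective
  obtain ⟨g, hg⟩ := LinearMap.exists_leftInverse_of_injective f hf
  have hgf : ∀ z : L, g (z : ℂ) = z := fun z => LinearMap.congr_fun hg z
  refine ⟨L.val.toLinearMap ∘ₗ g.restrictScalars ℚ, fun z => ?_, fun z hz => ?_,
    fun ℓ z hℓ => ?_⟩
  · exact (mem_algebraicClosure_iff (F := ℚ) (E := ℂ)).mp (g z).2
  · have hzL : z ∈ L := (mem_algebraicClosure_iff (F := ℚ) (E := ℂ)).mpr hz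
    show ((g z : L) : ℂ) = z
    have := hgf ⟨z, hzL⟩
    rw [show ((⟨z, hzL⟩ : L) : ℂ) = z from rfl] at this
    rw [this]
  · have hℓL : ℓ ∈ L := (mem_algebraicClosure_iff (F := ℚ) (E := ℂ)).mpr hℓ
    show ((g (ℓ * z) : L) : ℂ) = ℓ * ((g z : L) : ℂ)
    have h1 : ℓ * z = (⟨ℓ, hℓL⟩ : L) • z := rfl
    rw [h1, map_smul]
    rfl

end Fermat.Agent.S48x.DS0
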