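/-
P-S48 (Deligne-Serre), DS0 glue (helper16): integrality from bounded denominators of a linear
recurrence.  Mathlib only.

If `b 0 = 1`, `b 1 = x`, `b (r+2) = x * b (r+1) - e * b r` with `e` an algebraic integer, `x`
algebraic, and `D * b r` is an algebraic integer for every `r` (`D ≠ 0` an integer), then `x` is an
algebraic integer.
-/
import Mathlib

set_option autoImplicit false

namespace Fermat.Agent.S48x.DS0

open IntermediateField

/-- Step A: all `D * x ^ s * b r` are integral. -/
theorem isIntegral_mul_pow_mul_of_recursion {x e : ℂ} (he : IsIntegral ℤ e) (b : ℕ → ℂ)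
    (hb0 : b 0 = 1) (hb1 : b 1 = x) (hrec : ∀ r, b (r + 2) = x * b (r + 1) - e * b r)
    (D : ℂ) (hDb : ∀ r, IsIntegral ℤ (D * b r)) (s : ℕ) :
    ∀ r, IsIntegral ℤ (D * x ^ s * b r) := by
  induction s with
  | zero =>
    intro r
    simpa using hDb r
  | succ s ih =>
    intro r
    cases r with
    | zero =>
      have h : D * x ^ (s + 1) * b 0 = D * x ^ s * b 1 := by
        rw [hb0, hb1]
        ring
      rw [h]
      exact ih 1
    | succ r =>
      have h : D * x ^ (s + 1) * b (r + 1) = D * x ^ s * b (r + 2) + e * (D * x ^ s * b r) := by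
        rw [hrec r]
        ring
      rw [h]
      exact (ih (r + 2)).add (he.mul (ih r))

/-- Step B: an algebraic number all of whose powers have a common denominator is an algebraic
integer. -/
theorem isIntegral_of_forall_isIntegral_mul_pow {x : ℂ} (hx : IsAlgebraic ℚ x) {D : ℤ}
    (hD : D ≠ 0) (h : ∀ s : ℕ, IsIntegral ℤ ((D : ℂ) * x ^ s)) : IsIntegral ℤ x := by
  have hD' : (D : ℂ) ≠ 0 := by exact_mod_cast hD
  let K : IntermediateField ℚ ℂ := ℚ⟮x⟯
  have hxK : x ∈ K := mem_adjoin_simple_self ℚ x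
  have hfd : FiniteDimensional ℚ K := adjoin.finiteDimensional hx.isIntegral
  let C : Subalgebra ℤ K := integralClosure ℤ K
  have hnoeth : IsNoetherian ℤ C := IsIntegralClosure.isNoetherian ℤ ℚ K C
  -- the inclusion `C → ℂ`
  let φ : C →ₗ[ℤ] ℂ := (K.val.toLinearMap.restrictScalars ℤ).comp C.val.toLinearMap
  have hφ : ∀ z : C, φ z = ((z : K) : ℂ) := fun z => rfl
  let S : Subalgebra ℤ ℂ := Algebra.adjoin ℤ {x}
  have hle : S.toSubmodule.map (LinearMap.mulLeft ℤ (D : ℂ)) ≤ LinearMap.range φ := by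
    rintro _ ⟨y, hy, rfl⟩
    have hy' : y ∈ Algebra.adjoin ℤ {x} := hy
    rw [Algebra.adjoin_singleton_eq_range_aeval] at hy'
    obtain ⟨P, rfl⟩ := hy'
    simp only [LinearMap.mulLeft_apply]
    -- `D * P(x)` is integral and lies in `K`
    have hint : IsIntegral ℤ ((D : ℂ) * Polynomial.aeval x P) := by
      rw [Polynomial.aeval_eq_sum_range, Finset.mul_sum]
      refine IsIntegral.sum _ fun s _ => ?_
      have : (D : ℂ) * (P.coeff s • x ^ s) = (P.coeff s : ℂ) * ((D : ℂ) * x ^ s) := by
        rw [zsmul_eq_mul]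
        ring
      rw [this]
      exact isIntegral_algebraMap.mul (h s)
    have hmem : (D : ℂ) * Polynomial.aeval x P ∈ K := by
      refine K.mul_mem (K.intCast_mem D) ?_
      have : Polynomial.aeval x P ∈ Algebra.adjoin ℤ {x} := by
        rw [Algebra.adjoin_singleton_eq_range_aeval]
        exact ⟨P, rfl⟩
      refine Algebra.adjoin_le (S := K.toSubalgebra.restrictScalars ℤ) ?_ this
      rintro _ rfl
      exact hxK
    have hintK : IsIntegral ℤ (⟨_, hmem⟩ : K) := by
      rw [← isIntegral_algHom_iff (K.val.restrictScalars ℤ) Subtype.val_injective]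
      exact hint
    exact ⟨⟨⟨_, hmem⟩, hintK⟩, rfl⟩
  have hfg : S.toSubmodule.FG := by
    apply Submodule.fg_of_fg_map_injective (LinearMap.mulLeft ℤ (D : ℂ))
      (mul_right_injective₀ hD')
    rw [← Submodule.map_comap_eq_of_le hle]
    exact (IsNoetherian.noetherian _).map φ
  exact IsIntegral.of_mem_of_fg S hfg x (Algebra.subset_adjoin rfl)

/-- Integrality from the Hecke recursion with bounded denominators. -/
theorem isIntegral_of_recursion {x e : ℂ} (hx : IsAlgebraic ℚ x) (he : IsIntegral ℤ e)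
    (b : ℕ → ℂ) (hb0 : b 0 = 1) (hb1 : b 1 = x)
    (hrec : ∀ r, b (r + 2) = x * b (r + 1) - e * b r)
    {D : ℤ} (hD : D ≠ 0) (hDb : ∀ r, IsIntegral ℤ ((D : ℂ) * b r)) : IsIntegral ℤ x := by
  refine isIntegral_of_forall_isIntegral_mul_pow hx hD fun s => ?_
  have := isIntegral_mul_pow_mul_of_recursion he b hb0 hb1 hrec (D : ℂ) hDb s 0
  rwa [hb0, mul_one] at this

end Fermat.Agent.S48x.DS0
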