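/-
P-S48 (Deligne-Serre), DS0 glue (helper16): abstract core of DS0-a.

`V` finite dimensional over `ℂ` with a linear map `q` to sequences, stable under `Aut ℂ` (`hconj`)
and spanned by integral vectors (`hint`).  A normalised formal Hecke eigenvector `v₀` (for the
operators at `p ∈ P` with character values `χ p`) has eigenvalues `a_p = q v₀ p` which are algebraic
integers and which, together with the values of `χ`, generate a number field.
-/
import Mathlib
import Fermat.Agent.S48x.DS0.Formal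
import Fermat.Agent.S48x.DS0.Integral
import Fermat.Agent.S48x.DS0.Clean

set_option autoImplicit false

namespace Fermat.Agent.S48x.DS0

open IntermediateField

/-- Every embedding of a subfield of `ℂ` consisting of algebraic numbers extends to an
automorphism of `ℂ`. -/
theorem exists_ringEquiv_extending_of_isAlgebraic (K : IntermediateField ℚ ℂ)
    (hK : ∀ z ∈ K, IsAlgebraic ℚ z) (τ : K →ₐ[ℚ] ℂ) :
    ∃ σ : ℂ ≃+* ℂ, ∀ z : K, σ (z : ℂ) = τ z := by
  have hle : K ≤ algebraicClosure ℚ ℂ := fun z hz =>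
    (mem_algebraicClosure_iff (F := ℚ) (E := ℂ)).mpr (hK z hz)
  let e : K ≃ₐ[ℚ] restrict hle := restrictAlgEquiv hle
  obtain ⟨σ, hσ⟩ := exists_ringEquiv_extending_algHom (R := ℚ) (K := ℂ) (restrict hle)
    (τ.comp e.symm.toAlgHom)
  refine ⟨σ, fun z => ?_⟩
  have h := hσ (e z)
  have h2 : (τ.comp e.symm.toAlgHom) (e z) = τ z := by
    show τ (e.symm (e z)) = τ z
    rw [AlgEquiv.symm_apply_apply]
  exact h.trans h2

/-- **DS0-a, abstract form.** -/
theorem exists_numberField_of_eigen {V : Type*} [AddCommGroup V] [Module ℂ V]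
    [FiniteDimensional ℂ V] (q : V →ₗ[ℂ] (ℕ → ℂ))
    (hconj : ∀ (σ : ℂ ≃+* ℂ) (v : V), ∃ w : V, ∀ n, q w n = σ (q v n))
    (hint : Submodule.span ℂ {v : V | ∀ n, ∃ m : ℤ, q v n = m} = ⊤)
    (P : Set ℕ) (hP : ∀ p ∈ P, 2 ≤ p)
    (χ : ℕ → ℂ) (hχ : (autOrbit χ).Finite) (hχint : ∀ n, IsIntegral ℤ (χ n))
    (v₀ : V) (h1 : q v₀ 1 = 1)
    (hT : ∀ p ∈ P, ∀ n, q v₀ (p * n) + χ p * (if p ∣ n then q v₀ (n / p) else 0) =
      q v₀ p * q v₀ n) :
    ∃ K : IntermediateField ℚ ℂ, FiniteDimensional ℚ K ∧ (∀ z ∈ K, IsAlgebraic ℚ z) ∧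
      (∀ p ∈ P, q v₀ p ∈ K ∧ IsIntegral ℤ (q v₀ p)) ∧ ∀ n, χ n ∈ K := by
  classical
  set c : P ⊕ ℕ → ℂ := Sum.elim (fun p : P => q v₀ p) χ with hc
  have hfin : (autOrbit c).Finite := finite_autOrbit_of_eigen q hconj P χ hχ v₀ h1 hT
  have halg : ∀ i, IsAlgebraic ℚ (c i) := isAlgebraic_of_finite_autOrbit (R := ℚ) c hfin
  -- the number field
  let c' : P ⊕ ℕ → algebraicClosure ℚ ℂ := fun i =>
    ⟨c i, (mem_algebraicClosure_iff (F := ℚ) (E := ℂ)).mpr (halg i)⟩
  have hfin' : (autOrbit (fun i => ((c' i : algebraicClosure ℚ ℂ) : ℂ))).Finite := hfin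
  have hfd : FiniteDimensional ℚ (adjoin ℚ (Set.range c')) :=
    finiteDimensional_adjoin_of_finite_autOrbit ℚ c' hfin'
  have hmem : ∀ i, c i ∈ lift (adjoin ℚ (Set.range c')) := by
    intro i
    exact (mem_lift (c' i)).mpr (subset_adjoin _ _ ⟨i, rfl⟩)
  refine ⟨lift (adjoin ℚ (Set.range c')), ?_, ?_, ?_, fun n => hmem (Sum.inr n)⟩
  · exact @LinearEquiv.finiteDimensional ℚ _ _ _ _ _ _ _
      (liftAlgEquiv (adjoin ℚ (Set.range c'))).toLinearEquiv hfd
  · intro z hz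
    exact (mem_algebraicClosure_iff (F := ℚ) (E := ℂ)).mp (lift_le _ hz)
  · intro p hp
    refine ⟨hmem (Sum.inl ⟨p, hp⟩), ?_⟩
    -- integrality
    have hx : IsAlgebraic ℚ (q v₀ p) := halg (Sum.inl ⟨p, hp⟩)
    have he : IsAlgebraic ℚ (χ p) := halg (Sum.inr p)
    obtain ⟨μ, hμalg, hμid, hμlin⟩ := exists_algebraic_retraction
    obtain ⟨D, hD, hDb⟩ := exists_denominator_of_span q hint v₀ μ hμalg
    have hp0 : 0 < p := by have := hP p hp; omega
    have hp1 : ¬ p ∣ 1 := by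
      have := hP p hp
      intro h
      have := Nat.le_of_dvd one_pos h
      omega
    refine isIntegral_of_recursion (x := q v₀ p) (e := χ p) hx (hχint p)
      (fun r => μ (q v₀ (p ^ r))) ?_ ?_ ?_ hD (fun r => hDb (p ^ r))
    · show μ (q v₀ (p ^ 0)) = 1
      rw [pow_zero, h1]
      exact hμid 1 isAlgebraic_one
    · show μ (q v₀ (p ^ 1)) = q v₀ p
      rw [pow_one]
      exact hμid _ hx
    · intro r
      show μ (q v₀ (p ^ (r + 2))) = q v₀ p * μ (q v₀ (p ^ (r + 1))) - χ p * μ (q v₀ (p ^ r))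
      have h := hT p hp (p ^ (r + 1))
      have hdvd : p ∣ p ^ (r + 1) := dvd_pow_self p (Nat.succ_ne_zero r)
      have hdiv : p ^ (r + 1) / p = p ^ r := by
        rw [pow_succ, Nat.mul_div_cancel _ hp0]
      rw [if_pos hdvd, hdiv] at h
      have h2 : q v₀ (p ^ (r + 2)) = q v₀ p * q v₀ (p ^ (r + 1)) - χ p * q v₀ (p ^ r) := by
        have : p ^ (r + 2) = p * p ^ (r + 1) := by ring
        rw [this]
        linear_combination h
      rw [h2, map_sub, hμlin _ _ hx, hμlin _ _ he]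

end Fermat.Agent.S48x.DS0
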