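/-
P-S48 (Deligne-Serre), DS0 glue (helper16): the `q`-expansion of cusp forms on `Γ₁(N)` as an
injective `ℂ`-linear map to sequences.
-/
import Mathlib
import Fermat.Prelude.Thm_UpperHalfPlane_eq_of_forall_qCoeff_eq

set_option autoImplicit false

open UpperHalfPlane ModularFormClass CongruenceSubgroup
open scoped MatrixGroups

namespace Fermat.Agent.S48x.DS0

variable {N : ℕ} {k : ℤ}

theorem one_mem_strictPeriods_gamma1 (N : ℕ) :
    (1 : ℝ) ∈ (Gamma1 N : Subgroup (GL (Fin 2) ℝ)).strictPeriods := by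
  rw [strictPeriods_Gamma1]
  exact AddSubgroup.mem_zmultiples 1

theorem qCoeff_add_gamma1 (f g : CuspForm (Gamma1 N) k) (n : ℕ) :
    qCoeff ⇑(f + g) n = qCoeff ⇑f n + qCoeff ⇑g n := by
  simp only [qCoeff, FunLike.coe_add]
  rw [ModularForm.qExpansion_add one_pos (one_mem_strictPeriods_gamma1 N) f g, map_add]

theorem qCoeff_smul_gamma1 (c : ℂ) (f : CuspForm (Gamma1 N) k) (n : ℕ) :
    qCoeff ⇑(c • f) n = c * qCoeff ⇑f n := by
  have h1 : ⇑(c • f) = c • ⇑f := by
    ext z
    simp
  simp only [qCoeff, h1]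
  rw [ModularForm.qExpansion_smul one_pos (one_mem_strictPeriods_gamma1 N) c f]
  simp

/-- The `q`-expansion map on `S_k(Γ₁(N))`, as a linear map to sequences. -/
noncomputable def qSeq (N : ℕ) (k : ℤ) : CuspForm (Gamma1 N) k →ₗ[ℂ] (ℕ → ℂ) where
  toFun f n := qCoeff ⇑f n
  map_add' f g := by
    funext n
    exact qCoeff_add_gamma1 f g n
  map_smul' c f := by
    funext n
    simp only [Pi.smul_apply, RingHom.id_apply, smul_eq_mul]
    exact qCoeff_smul_gamma1 c f n

theorem qSeq_apply (f : CuspForm (Gamma1 N) k) (n : ℕ) : qSeq N k f n = qCoeff ⇑f n := rfl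

theorem qSeq_injective (N : ℕ) [NeZero N] (k : ℤ) : Function.Injective (qSeq N k) := by
  intro f g h
  have hper : ∀ F : CuspForm (Gamma1 N) k, Function.Periodic ((⇑F : ℍ → ℂ) ∘ ofComplex) 1 := by
    intro F
    have := SlashInvariantFormClass.periodic_comp_ofComplex F (one_mem_strictPeriods_gamma1 N)
    simpa using this
  have : (⇑f : ℍ → ℂ) = ⇑g :=
    UpperHalfPlane.eq_of_forall_qCoeff_eq (hper f) (ModularFormClass.holo f)
      (ModularFormClass.bdd_at_infty f) (hper g) (ModularFormClass.holo g)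
      (ModularFormClass.bdd_at_infty g) (fun n => congrFun h n)
  exact DFunLike.coe_injective this

end Fermat.Agent.S48x.DS0
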