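/-
P-S48 (Deligne-Serre), DS0 glue (helper16): DS0-a/b for the data of the frozen statement S48,
hypothesis-style on the three GS1 exports
  (hconj) `S₁(Γ₁(N))` is stable under `Aut ℂ` acting on `q`-expansions,
  (hint)  `S₁(Γ₁(N))` is spanned by forms with integer `q`-expansion,
  (hfin)  `S₁(Γ₁(N))` is finite dimensional.

Output: the `a_p` (`p ∤ N`) are algebraic integers, they generate together with the values of `ε` a
number field `K ⊆ ℂ`, and every embedding `τ : K → ℂ` is induced by an automorphism `σ` of `ℂ`, for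
which `hconj` provides the conjugate form `f^σ`, again a normalised formal eigenform (with
character `σ ∘ ε`).
-/
import Mathlib
import Fermat.Agent.S48x.DS0.QSeq
import Fermat.Agent.S48x.DS0.Core

set_option autoImplicit false

open UpperHalfPlane ModularFormClass CongruenceSubgroup
open scoped MatrixGroups

namespace Fermat.Agent.S48x.DS0

variable {N : ℕ} [NeZero N]

/-- Values of a Dirichlet character are `0` or roots of unity of order dividing `φ(N)`. -/
theorem dirichlet_value (ε : DirichletCharacter ℂ N) (x : ZMod N) :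
    ε x = 0 ∨ ε x ^ N.totient = 1 := by
  by_cases hx : IsUnit x
  · right
    obtain ⟨u, rfl⟩ := hx
    rw [← map_pow, ← Units.val_pow_eq_pow_val, ZMod.pow_totient, Units.val_one, map_one]
  · left
    exact MulChar.map_nonunit ε hx

theorem isIntegral_dirichlet (ε : DirichletCharacter ℂ N) (x : ZMod N) : IsIntegral ℤ (ε x) := by
  rcases dirichlet_value ε x with h | h
  · rw [h]
    exact isIntegral_zero
  · refine IsIntegral.of_pow (Nat.totient_pos.mpr (Nat.pos_of_ne_zero (NeZero.ne N))) ?_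
    rw [h]
    exact isIntegral_one

/-- The values of a Dirichlet character have finite orbit under `Aut ℂ`. -/
theorem finite_autOrbit_dirichlet (ε : DirichletCharacter ℂ N) :
    (autOrbit (fun n : ℕ => ε (n : ZMod N))).Finite := by
  classical
  have hm : 0 < N.totient := Nat.totient_pos.mpr (Nat.pos_of_ne_zero (NeZero.ne N))
  let T : Set ℂ := {0} ∪ ↑(Polynomial.nthRootsFinset N.totient (1 : ℂ))
  have hT : T.Finite := (Set.finite_singleton 0).union (Finset.finite_toSet _)
  have hF : {g : ZMod N → ℂ | ∀ x, g x ∈ T}.Finite := Set.Finite.pi' fun _ => hT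
  refine (hF.image fun g => fun n : ℕ => g (n : ZMod N)).subset ?_
  rintro _ ⟨σ, rfl⟩
  refine ⟨fun x => σ (ε x), fun x => ?_, rfl⟩
  rcases dirichlet_value ε x with h | h
  · left
    show σ (ε x) = 0
    rw [h, map_zero]
  · right
    show σ (ε x) ∈ Polynomial.nthRootsFinset N.totient (1 : ℂ)
    rw [Polynomial.mem_nthRootsFinset hm, ← map_pow, h, map_one]

/-- **DS0-a for the frozen S48 data**: number field and integrality. -/
theorem exists_numberField (ε : DirichletCharacter ℂ N) (f : CuspForm (Gamma1 N) 1)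
    (hf₁ : qCoeff f 1 = 1)
    (hT : ∀ p : ℕ, p.Prime → ¬ p ∣ N → ∀ n : ℕ,
        qCoeff f (p * n) + ε (p : ZMod N) * (if p ∣ n then qCoeff f (n / p) else 0) =
          qCoeff f p * qCoeff f n)
    (hconj : ∀ (σ : ℂ ≃+* ℂ) (g : CuspForm (Gamma1 N) 1),
      ∃ g' : CuspForm (Gamma1 N) 1, ∀ n, qCoeff g' n = σ (qCoeff g n))
    (hint : Submodule.span ℂ {g : CuspForm (Gamma1 N) 1 | ∀ n, ∃ m : ℤ, qCoeff g n = m} = ⊤)
    (hfin : FiniteDimensional ℂ (CuspForm (Gamma1 N) 1)) :
    ∃ K : IntermediateField ℚ ℂ, FiniteDimensional ℚ K ∧ (∀ z ∈ K, IsAlgebraic ℚ z) ∧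
      (∀ p : ℕ, p.Prime → ¬ p ∣ N → qCoeff f p ∈ K ∧ IsIntegral ℤ (qCoeff f p)) ∧
      ∀ x : ZMod N, ε x ∈ K ∧ IsIntegral ℤ (ε x) := by
  obtain ⟨K, hK, hKalg, hKa, hKχ⟩ := exists_numberField_of_eigen (qSeq N 1) hconj hint
    {p | p.Prime ∧ ¬ p ∣ N} (fun p hp => hp.1.two_le) (fun n : ℕ => ε (n : ZMod N))
    (finite_autOrbit_dirichlet ε) (fun n => isIntegral_dirichlet ε _) f hf₁
    (fun p hp n => hT p hp.1 hp.2 n)
  refine ⟨K, hK, hKalg, fun p hp hpN => hKa p ⟨hp, hpN⟩, fun x => ⟨?_, isIntegral_dirichlet ε x⟩⟩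
  have := hKχ x.val
  rwa [ZMod.natCast_zmod_val] at this

/-- **DS0-b**: every embedding of a subfield of algebraic numbers is induced by an automorphism of
`ℂ`, and the conjugate form is again a normalised formal eigenform, for the conjugate
character. -/
theorem exists_conjugate_form (ε : DirichletCharacter ℂ N) (f : CuspForm (Gamma1 N) 1)
    (hf₁ : qCoeff f 1 = 1)
    (hT : ∀ p : ℕ, p.Prime → ¬ p ∣ N → ∀ n : ℕ,
        qCoeff f (p * n) + ε (p : ZMod N) * (if p ∣ n then qCoeff f (n / p) else 0) =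
          qCoeff f p * qCoeff f n)
    (hconj : ∀ (σ : ℂ ≃+* ℂ) (g : CuspForm (Gamma1 N) 1),
      ∃ g' : CuspForm (Gamma1 N) 1, ∀ n, qCoeff g' n = σ (qCoeff g n))
    (K : IntermediateField ℚ ℂ) (hK : ∀ z ∈ K, IsAlgebraic ℚ z) (τ : K →ₐ[ℚ] ℂ) :
    ∃ (σ : ℂ ≃+* ℂ) (f' : CuspForm (Gamma1 N) 1), (∀ z : K, σ (z : ℂ) = τ z) ∧
      (∀ n, qCoeff f' n = σ (qCoeff f n)) ∧ qCoeff f' 1 = 1 ∧
      ∀ p : ℕ, p.Prime → ¬ p ∣ N → ∀ n : ℕ,
        qCoeff f' (p * n) +
            (ε.ringHomComp (σ : ℂ →+* ℂ)) (p : ZMod N) *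
              (if p ∣ n then qCoeff f' (n / p) else 0) =
          qCoeff f' p * qCoeff f' n := by
  obtain ⟨σ, hσ⟩ := exists_ringEquiv_extending_of_isAlgebraic K hK τ
  obtain ⟨f', hf'⟩ := hconj σ f
  refine ⟨σ, f', hσ, hf', by rw [hf', hf₁, map_one], fun p hp hpN n => ?_⟩
  have h := congrArg σ (hT p hp hpN n)
  simp only [map_add, map_mul] at h
  simp only [hf', MulChar.ringHomComp_apply]
  rw [← h]
  split_ifs
  · rfl
  · simp

end Fermat.Agent.S48x.DS0
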