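/-
P-S48 (Deligne-Serre), DS0 glue (helper16): the integral model of the eigen-system
(`DS2.HasIntegralModel`, the DS0 input of DS2-top).

The given `f` may have transcendental coefficients at indices not prime to `N`.  Applying an
`algebraicClosure ℚ ℂ`-linear retraction `μ` of `ℂ` onto the algebraic numbers coefficientwise
(possible inside `S₁(Γ₁(N))` because of the integral structure) gives a form `g` with algebraic
coefficients, the same `a_p` (`p ∤ N`), `a_1(g) = 1`, the same formal Hecke relations, hence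
(DS0-c, helper62) nebentypus `ε`; and `D • g` has algebraic integer coefficients.
-/
import Mathlib
import Fermat.Agent.S48x.DS0.Main
import Fermat.Agent.S48x.DS2.Contract
import Fermat.Agent.S48x.Nebentypus.Main

set_option autoImplicit false

open UpperHalfPlane ModularFormClass CongruenceSubgroup
open scoped MatrixGroups ModularForm

namespace Fermat.Agent.S48x.DS0

/-- Inside a space spanned by vectors with integer sequences, every `ℚ`-linear map `μ : ℂ → ℂ` can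
be applied coefficientwise. -/
theorem exists_linear_image {V : Type*} [AddCommGroup V] [Module ℂ V] (q : V →ₗ[ℂ] (ℕ → ℂ))
    (hint : Submodule.span ℂ {v : V | ∀ n, ∃ m : ℤ, q v n = m} = ⊤) (v : V) (μ : ℂ →ₗ[ℚ] ℂ) :
    ∃ w : V, ∀ n, q w n = μ (q v n) := by
  have hv : v ∈ Submodule.span ℂ {v : V | ∀ n, ∃ m : ℤ, q v n = m} := by
    rw [hint]
    exact Submodule.mem_top
  revert μ
  induction hv using Submodule.span_induction with
  | mem v hv =>
    intro μ
    refine ⟨μ 1 • v, fun n => ?_⟩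
    obtain ⟨m, hm⟩ := hv n
    rw [map_smul, Pi.smul_apply, smul_eq_mul, hm]
    have : ((m : ℂ)) = m • (1 : ℂ) := by simp
    rw [this, map_zsmul, zsmul_eq_mul, zsmul_eq_mul]
    ring
  | zero =>
    intro μ
    exact ⟨0, fun n => by simp⟩
  | add v w _ _ ihv ihw =>
    intro μ
    obtain ⟨v', hv'⟩ := ihv μ
    obtain ⟨w', hw'⟩ := ihw μ
    exact ⟨v' + w', fun n => by simp [hv', hw']⟩
  | smul c v _ ih =>
    intro μ
    obtain ⟨w, hw⟩ := ih (μ ∘ₗ LinearMap.mulLeft ℚ c)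
    refine ⟨w, fun n => ?_⟩
    rw [hw]
    simp

variable {N : ℕ} [NeZero N]

/-- **The cleaned form**: algebraic coefficients, normalised, same eigen-system away from `N`. -/
theorem exists_cleaned_form (ε : DirichletCharacter ℂ N) (f : CuspForm (Gamma1 N) 1)
    (hf₁ : qCoeff f 1 = 1)
    (hT : ∀ p : ℕ, p.Prime → ¬ p ∣ N → ∀ n : ℕ,
        qCoeff f (p * n) + ε (p : ZMod N) * (if p ∣ n then qCoeff f (n / p) else 0) =
          qCoeff f p * qCoeff f n)
    (hint : Submodule.span ℂ {g : CuspForm (Gamma1 N) 1 | ∀ n, ∃ m : ℤ, qCoeff g n = m} = ⊤)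
    (halg : ∀ p : ℕ, p.Prime → ¬ p ∣ N → IsAlgebraic ℚ (qCoeff f p)) :
    ∃ (g : CuspForm (Gamma1 N) 1) (D : ℤ), D ≠ 0 ∧ qCoeff g 1 = 1 ∧
      (∀ n, IsAlgebraic ℚ (qCoeff g n)) ∧ (∀ n, IsIntegral ℤ ((D : ℂ) * qCoeff g n)) ∧
      (∀ p : ℕ, p.Prime → ¬ p ∣ N → qCoeff g p = qCoeff f p) ∧
      ∀ p : ℕ, p.Prime → ¬ p ∣ N → ∀ n : ℕ,
        qCoeff g (p * n) + ε (p : ZMod N) * (if p ∣ n then qCoeff g (n / p) else 0) =
          qCoeff f p * qCoeff g n := by
  obtain ⟨μ, hμalg, hμid, hμlin⟩ := exists_algebraic_retraction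
  obtain ⟨g, hg⟩ := exists_linear_image (qSeq N 1) hint f μ
  have hg' : ∀ n, qCoeff g n = μ (qCoeff f n) := hg
  obtain ⟨D, hD, hDint⟩ := exists_denominator_of_span (qSeq N 1) hint f μ hμalg
  have hDint' : ∀ n, IsIntegral ℤ ((D : ℂ) * μ (qCoeff f n)) := hDint
  refine ⟨g, D, hD, ?_, fun n => ?_, fun n => ?_, fun p hp hpN => ?_, fun p hp hpN n => ?_⟩
  · rw [hg', hf₁]
    exact hμid 1 isAlgebraic_one
  · rw [hg']
    exact hμalg _
  · rw [hg']
    exact hDint' n
  · rw [hg']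
    exact hμid _ (halg p hp hpN)
  · have hε : IsAlgebraic ℚ (ε (p : ZMod N)) :=
      (IsFractionRing.isAlgebraic_iff ℤ ℚ ℂ).mp (isIntegral_dirichlet ε _).isAlgebraic
    have h := congrArg μ (hT p hp hpN n)
    rw [map_add, hμlin _ _ hε, hμlin _ _ (halg p hp hpN)] at h
    simp only [hg']
    rw [← h]
    split_ifs <;> simp

/-- **DS0 → DS2-top**: the integral model of the eigen-system. -/
theorem hasIntegralModel (ε : DirichletCharacter ℂ N) (f : CuspForm (Gamma1 N) 1)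
    (hf₁ : qCoeff f 1 = 1)
    (hT : ∀ p : ℕ, p.Prime → ¬ p ∣ N → ∀ n : ℕ,
        qCoeff f (p * n) + ε (p : ZMod N) * (if p ∣ n then qCoeff f (n / p) else 0) =
          qCoeff f p * qCoeff f n)
    (hint : Submodule.span ℂ {g : CuspForm (Gamma1 N) 1 | ∀ n, ∃ m : ℤ, qCoeff g n = m} = ⊤)
    (halg : ∀ p : ℕ, p.Prime → ¬ p ∣ N → IsAlgebraic ℚ (qCoeff f p)) :
    DS2.HasIntegralModel N ε (fun p => qCoeff f p) := by
  obtain ⟨g, D, hD, hg1, -, hgint, hgp, hgT⟩ := exists_cleaned_form ε f hf₁ hT hint halg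
  have hD' : (D : ℂ) ≠ 0 := by exact_mod_cast hD
  -- nebentypus of `g`
  have hgneb : ∀ γ : SL(2, ℤ), γ ∈ Gamma0 N →
      (⇑g : ℍ → ℂ) ∣[(1 : ℤ)] γ = ε ((γ 1 1 : ℤ) : ZMod N) • (⇑g : ℍ → ℂ) := by
    intro γ hγ
    refine Nebentypus.SL_slash_eq_eps_smul ε g (fun p hp hpN n => ?_) γ hγ
    rw [hgp p hp hpN]
    exact hgT p hp hpN n
  have hcoe : (⇑((D : ℂ) • g) : ℍ → ℂ) = (D : ℂ) • (⇑g : ℍ → ℂ) := by
    ext z
    simp
  have hq : ∀ n, qCoeff (⇑((D : ℂ) • g) : ℍ → ℂ) n = (D : ℂ) * qCoeff g n :=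
    fun n => qCoeff_smul_gamma1 (D : ℂ) g n
  refine ⟨(D : ℂ) • g, ?_, ?_, ?_, D.natAbs.primeFactors, ?_⟩
  · intro γ hγ
    rw [hcoe, ModularForm.SL_smul_slash, hgneb γ hγ, smul_comm]
  · intro n
    rw [hq]
    exact hgint n
  · intro p hp hpN n
    simp only [hq]
    have := hgT p hp hpN n
    split_ifs at this ⊢ <;> linear_combination (D : ℂ) * this
  · intro ℓ hℓ hℓB k _ _ φ
    refine ⟨1, (D : integralClosure ℤ ℂ), ?_, ?_⟩
    · rw [hq, hg1, mul_one]
      simp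
    · rw [map_intCast]
      intro h0
      rw [CharP.intCast_eq_zero_iff k ℓ] at h0
      apply hℓB
      rw [Nat.mem_primeFactors]
      exact ⟨hℓ, Int.natCast_dvd.mp h0, by simpa using hD⟩

end Fermat.Agent.S48x.DS0
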