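/-
P-S48 (Deligne-Serre), DS0 glue (helper16): inputs (A) and (A'+B) of the assembly
(helper18, note 980 / msg 8129), in `ℂ`-language: integrality, the number field, and the Rankin
bound for ALL conjugates of the eigen-system.  Hypothesis-style on the GS1 exports.
-/
import Mathlib
import Fermat.Agent.S48x.DS0.Main
import Fermat.Agent.S48x.Rankin.DS1

set_option autoImplicit false

open UpperHalfPlane ModularFormClass CongruenceSubgroup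
open scoped MatrixGroups

namespace Fermat.Agent.S48x.DS0

variable {N : ℕ} [NeZero N]

/-- **Rankin bound for all conjugates.** -/
theorem rankin_conjugates (ε : DirichletCharacter ℂ N) (f : CuspForm (Gamma1 N) 1)
    (hf₁ : qCoeff f 1 = 1)
    (hT : ∀ p : ℕ, p.Prime → ¬ p ∣ N → ∀ n : ℕ,
        qCoeff f (p * n) + ε (p : ZMod N) * (if p ∣ n then qCoeff f (n / p) else 0) =
          qCoeff f p * qCoeff f n)
    (hconj : ∀ (σ : ℂ ≃+* ℂ) (g : CuspForm (Gamma1 N) 1),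
      ∃ g' : CuspForm (Gamma1 N) 1, ∀ n, qCoeff g' n = σ (qCoeff g n))
    (K : IntermediateField ℚ ℂ) (hK : ∀ z ∈ K, IsAlgebraic ℚ z)
    (τ : K →+* ℂ) (b : ℕ → ℂ)
    (hb : ∀ p : ℕ, p.Prime → ¬ p ∣ N → ∃ x : K, (x : ℂ) = qCoeff f p ∧ τ x = b p) :
    ∃ C : ℝ, ∀ s : ℝ, 1 < s → s ≤ 2 → ∀ P : Finset ℕ, (∀ p ∈ P, p.Prime ∧ ¬ p ∣ N) →
      ∑ p ∈ P, ‖b p‖ ^ 2 * (p : ℝ) ^ (-s) ≤ Real.log (1 / (s - 1)) + C := by
  obtain ⟨σ, f', hσ, hf', hf'1, hf'T⟩ :=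
    exists_conjugate_form ε f hf₁ hT hconj K hK τ.toRatAlgHom
  obtain ⟨C, hC⟩ := Rankin.rankin_bound N (ε.ringHomComp (σ : ℂ →+* ℂ)) f' hf'1 hf'T
  refine ⟨C, fun s hs hs2 P hP => ?_⟩
  have hbp : ∀ p ∈ P, b p = qCoeff f' p := by
    intro p hp
    obtain ⟨x, hx, hxb⟩ := hb p (hP p hp).1 (hP p hp).2
    rw [hf', ← hx, hσ x, ← hxb]
    rfl
  have := hC s hs hs2 P hP
  calc ∑ p ∈ P, ‖b p‖ ^ 2 * (p : ℝ) ^ (-s)
      = ∑ p ∈ P, ‖qCoeff f' p‖ ^ 2 * (p : ℝ) ^ (-s) :=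
        Finset.sum_congr rfl fun p hp => by rw [hbp p hp]
    _ ≤ _ := this

/-- **DS0 complete, `ℂ`-language** (inputs (A), (A'+B) of the assembly). -/
theorem ds0_inputs (ε : DirichletCharacter ℂ N) (f : CuspForm (Gamma1 N) 1)
    (hf₁ : qCoeff f 1 = 1)
    (hT : ∀ p : ℕ, p.Prime → ¬ p ∣ N → ∀ n : ℕ,
        qCoeff f (p * n) + ε (p : ZMod N) * (if p ∣ n then qCoeff f (n / p) else 0) =
          qCoeff f p * qCoeff f n)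
    (hconj : ∀ (σ : ℂ ≃+* ℂ) (g : CuspForm (Gamma1 N) 1),
      ∃ g' : CuspForm (Gamma1 N) 1, ∀ n, qCoeff g' n = σ (qCoeff g n))
    (hint : Submodule.span ℂ {g : CuspForm (Gamma1 N) 1 | ∀ n, ∃ m : ℤ, qCoeff g n = m} = ⊤)
    (hfin : FiniteDimensional ℂ (CuspForm (Gamma1 N) 1)) :
    (∀ p : ℕ, p.Prime → ¬ p ∣ N → IsIntegral ℤ (qCoeff f p)) ∧
    ∃ K : IntermediateField ℚ ℂ, FiniteDimensional ℚ K ∧ (∀ z ∈ K, IsAlgebraic ℚ z) ∧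
      (∀ p : ℕ, p.Prime → ¬ p ∣ N → qCoeff f p ∈ K) ∧ (∀ x : ZMod N, ε x ∈ K) ∧
      ∀ (τ : K →+* ℂ) (b : ℕ → ℂ),
        (∀ p : ℕ, p.Prime → ¬ p ∣ N → ∃ x : K, (x : ℂ) = qCoeff f p ∧ τ x = b p) →
        ∃ C : ℝ, ∀ s : ℝ, 1 < s → s ≤ 2 → ∀ P : Finset ℕ, (∀ p ∈ P, p.Prime ∧ ¬ p ∣ N) →
          ∑ p ∈ P, ‖b p‖ ^ 2 * (p : ℝ) ^ (-s) ≤ Real.log (1 / (s - 1)) + C := by
  obtain ⟨K, hKfd, hKalg, hKa, hKε⟩ := exists_numberField ε f hf₁ hT hconj hint hfin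
  exact ⟨fun p hp hpN => (hKa p hp hpN).2, K, hKfd, hKalg, fun p hp hpN => (hKa p hp hpN).1,
    fun x => (hKε x).1, fun τ b hb => rankin_conjugates ε f hf₁ hT hconj K hKalg τ b hb⟩

end Fermat.Agent.S48x.DS0
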