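/-
P-S48 (Deligne-Serre), DS0 glue (helper16): all DS0 outputs from the three GS1 properties
`GaloisStable1 N 1`, `HasIntegralStructure1 N 1`, `FiniteDimensional ℂ S₁(Γ₁(N))` (vocabulary of
`GS1/Defs.lean`, helper39).
-/
import Mathlib
import Fermat.Agent.S48x.DS0.RankinAll
import Fermat.Agent.S48x.DS0.Model
import Fermat.Agent.S48x.GS1.Defs

set_option autoImplicit false

open UpperHalfPlane ModularFormClass CongruenceSubgroup
open scoped MatrixGroups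

namespace Fermat.Agent.S48x.DS0

variable {N : ℕ}

/-- The `ℂ`-span of the integer forms is everything, from the GS1 integral structure. -/
theorem span_int_forms_eq_top {k : ℤ} (h : GS1.HasIntegralStructure1 N k) :
    Submodule.span ℂ {g : CuspForm (Gamma1 N) k | ∀ n, ∃ m : ℤ, qCoeff g n = m} = ⊤ := by
  have h' := h
  unfold GS1.HasIntegralStructure1 GS1.intLattice1 at h'
  rwa [Submodule.span_span_of_tower] at h'

variable [NeZero N]

/-- **DS0, all outputs**, from the GS1 properties. -/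
theorem ds0_of_gs1 (ε : DirichletCharacter ℂ N) (f : CuspForm (Gamma1 N) 1)
    (hf₁ : qCoeff f 1 = 1)
    (hT : ∀ p : ℕ, p.Prime → ¬ p ∣ N → ∀ n : ℕ,
        qCoeff f (p * n) + ε (p : ZMod N) * (if p ∣ n then qCoeff f (n / p) else 0) =
          qCoeff f p * qCoeff f n)
    (hconj : GS1.GaloisStable1 N 1) (hint : GS1.HasIntegralStructure1 N 1)
    (hfin : FiniteDimensional ℂ (CuspForm (Gamma1 N) 1)) :
    (∀ p : ℕ, p.Prime → ¬ p ∣ N → IsIntegral ℤ (qCoeff f p)) ∧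
    DS2.HasIntegralModel N ε (fun p => qCoeff f p) ∧
    ∃ K : IntermediateField ℚ ℂ, FiniteDimensional ℚ K ∧ (∀ z ∈ K, IsAlgebraic ℚ z) ∧
      (∀ p : ℕ, p.Prime → ¬ p ∣ N → qCoeff f p ∈ K) ∧ (∀ x : ZMod N, ε x ∈ K) ∧
      ∀ (τ : K →+* ℂ) (b : ℕ → ℂ),
        (∀ p : ℕ, p.Prime → ¬ p ∣ N → ∃ x : K, (x : ℂ) = qCoeff f p ∧ τ x = b p) →
        ∃ C : ℝ, ∀ s : ℝ, 1 < s → s ≤ 2 → ∀ P : Finset ℕ, (∀ p ∈ P, p.Prime ∧ ¬ p ∣ N) →
          ∑ p ∈ P, ‖b p‖ ^ 2 * (p : ℝ) ^ (-s) ≤ Real.log (1 / (s - 1)) + C := by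
  have hint' := span_int_forms_eq_top hint
  obtain ⟨hA, K, hKfd, hKalg, hKa, hKε, hB⟩ := ds0_inputs ε f hf₁ hT hconj hint' hfin
  refine ⟨hA, ?_, K, hKfd, hKalg, hKa, hKε, hB⟩
  exact hasIntegralModel ε f hf₁ hT hint' fun p hp hpN => hKalg _ (hKa p hp hpN)

end Fermat.Agent.S48x.DS0
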