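/-
P-S48 (Deligne-Serre), DS0 (helper16): the hypothesis-free DS0 outputs for the data of the frozen
statement S48: GS1 (helper39, helper80, helper62, helper79, helper98) + the formal half
(`DS0/*`) + DS0-c (helper62) + DS1 (helper42, helper56).

* `integral` : the `a_p` (`p ∤ N`) are algebraic integers            [Assembly (A), DS2-top `ha`]
* `integralModel` : `DS2.HasIntegralModel N ε a`                       [DS2-top `hmodel`]
* `numberField_rankin` : the number field and the Rankin bound for all conjugates  [Assembly (A'+B)]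
-/
import Mathlib
import Fermat.Agent.S48x.DS0.OfGS1
import Fermat.Agent.S48x.GS1.EisCharStatement
import Fermat.Agent.S48x.GS1.Integral

set_option autoImplicit false

open UpperHalfPlane ModularFormClass CongruenceSubgroup
open scoped MatrixGroups

namespace Fermat.Agent.S48x.DS0

variable {N : ℕ} [NeZero N]

/-- **DS0 complete** (no hypotheses beyond the data of the frozen S48). -/
theorem ds0 (ε : DirichletCharacter ℂ N) (f : CuspForm (Gamma1 N) 1)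
    (hf₁ : qCoeff f 1 = 1)
    (hT : ∀ p : ℕ, p.Prime → ¬ p ∣ N → ∀ n : ℕ,
        qCoeff f (p * n) + ε (p : ZMod N) * (if p ∣ n then qCoeff f (n / p) else 0) =
          qCoeff f p * qCoeff f n) :
    (∀ p : ℕ, p.Prime → ¬ p ∣ N → IsIntegral ℤ (qCoeff f p)) ∧
    DS2.HasIntegralModel N ε (fun p => qCoeff f p) ∧
    ∃ K : IntermediateField ℚ ℂ, FiniteDimensional ℚ K ∧ (∀ z ∈ K, IsAlgebraic ℚ z) ∧
      (∀ p : ℕ, p.Prime → ¬ p ∣ N → qCoeff f p ∈ K) ∧ (∀ x : ZMod N, ε x ∈ K) ∧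
      ∀ (τ : K →+* ℂ) (b : ℕ → ℂ),
        (∀ p : ℕ, p.Prime → ¬ p ∣ N → ∃ x : K, (x : ℂ) = qCoeff f p ∧ τ x = b p) →
        ∃ C : ℝ, ∀ s : ℝ, 1 < s → s ≤ 2 → ∀ P : Finset ℕ, (∀ p ∈ P, p.Prime ∧ ¬ p ∣ N) →
          ∑ p ∈ P, ‖b p‖ ^ 2 * (p : ℝ) ^ (-s) ≤ Real.log (1 / (s - 1)) + C :=
  ds0_of_gs1 ε f hf₁ hT (GS1.galoisStable1 GS1.eisCharStatement N 1)
    (GS1.hasIntegralStructure1 GS1.eisCharStatement N 1)
    (GS1.finiteDimensional_cuspForm1 GS1.eisCharStatement N 1)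

/-- The `a_p`, `p ∤ N`, are algebraic integers. -/
theorem integral (ε : DirichletCharacter ℂ N) (f : CuspForm (Gamma1 N) 1)
    (hf₁ : qCoeff f 1 = 1)
    (hT : ∀ p : ℕ, p.Prime → ¬ p ∣ N → ∀ n : ℕ,
        qCoeff f (p * n) + ε (p : ZMod N) * (if p ∣ n then qCoeff f (n / p) else 0) =
          qCoeff f p * qCoeff f n) :
    ∀ p : ℕ, p.Prime → ¬ p ∣ N → IsIntegral ℤ (qCoeff f p) :=
  (ds0 ε f hf₁ hT).1

/-- The integral model of the eigen-system (input `hmodel` of DS2-top). -/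
theorem integralModel (ε : DirichletCharacter ℂ N) (f : CuspForm (Gamma1 N) 1)
    (hf₁ : qCoeff f 1 = 1)
    (hT : ∀ p : ℕ, p.Prime → ¬ p ∣ N → ∀ n : ℕ,
        qCoeff f (p * n) + ε (p : ZMod N) * (if p ∣ n then qCoeff f (n / p) else 0) =
          qCoeff f p * qCoeff f n) :
    DS2.HasIntegralModel N ε (fun p => qCoeff f p) :=
  (ds0 ε f hf₁ hT).2.1

/-- The number field of the eigen-system and the Rankin bound for all its conjugates. -/
theorem numberField_rankin (ε : DirichletCharacter ℂ N) (f : CuspForm (Gamma1 N) 1)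
    (hf₁ : qCoeff f 1 = 1)
    (hT : ∀ p : ℕ, p.Prime → ¬ p ∣ N → ∀ n : ℕ,
        qCoeff f (p * n) + ε (p : ZMod N) * (if p ∣ n then qCoeff f (n / p) else 0) =
          qCoeff f p * qCoeff f n) :
    ∃ K : IntermediateField ℚ ℂ, FiniteDimensional ℚ K ∧ (∀ z ∈ K, IsAlgebraic ℚ z) ∧
      (∀ p : ℕ, p.Prime → ¬ p ∣ N → qCoeff f p ∈ K) ∧ (∀ x : ZMod N, ε x ∈ K) ∧
      ∀ (τ : K →+* ℂ) (b : ℕ → ℂ),
        (∀ p : ℕ, p.Prime → ¬ p ∣ N → ∃ x : K, (x : ℂ) = qCoeff f p ∧ τ x = b p) →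
        ∃ C : ℝ, ∀ s : ℝ, 1 < s → s ≤ 2 → ∀ P : Finset ℕ, (∀ p ∈ P, p.Prime ∧ ¬ p ∣ N) →
          ∑ p ∈ P, ‖b p‖ ^ 2 * (p : ℝ) ^ (-s) ≤ Real.log (1 / (s - 1)) + C :=
  (ds0 ε f hf₁ hT).2.2

end Fermat.Agent.S48x.DS0
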