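/-
P-S48 (Deligne-Serre), DS0 glue (helper16): automorphisms of an algebraically closed field `K`
over a subfield `R` (in the application `K = ℂ`, `R = ℚ`), and the consequence
"a family with finite `Aut(K)`-orbit consists of algebraic elements generating a finite extension".
Uses `S23/Descent` (extension of automorphisms along a transcendence basis).
-/
import Mathlib
import Fermat.Agent.S23.Descent

set_option autoImplicit false

namespace Fermat.Agent.S48x.DS0

open Fermat.Agent.S23 MvPolynomial IntermediateField

section Aut

variable {R K : Type*} [Field R] [Field K] [Algebra R K] [IsAlgClosed K]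

/-- For `x` transcendental over `R` there is an automorphism of `K` with `σ x = x + 1`. -/
theorem exists_ringEquiv_shift (x : K) (hx : Transcendental R x) :
    ∃ σ : K ≃+* K, σ x = x + 1 := by
  have hind : AlgebraicIndepOn R id ({x} : Set K) := by
    have : AlgebraicIndependent R (fun i : ({x} : Set K) => id (i : K)) := by
      rw [algebraicIndependent_unique_type_iff]
      simpa using hx
    exact this
  obtain ⟨t, hst, ht⟩ := exists_isTranscendenceBasis_superset hind
  obtain ⟨σ, hσ⟩ := exists_ringEquiv_of_transcendenceBasis (R := R) ((↑) : t → K) ht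
    (shiftEquiv t R).toRingEquiv
  refine ⟨σ, ?_⟩
  have hxt : x ∈ t := hst rfl
  have := hσ (X ⟨x, hxt⟩)
  simpa only [aeval_X, AlgEquiv.coe_ringEquiv, shiftEquiv_X, map_add, map_one] using this

/-- Iterating the shift. -/
theorem exists_ringEquiv_shift_nat (x : K) (hx : Transcendental R x) (n : ℕ) :
    ∃ σ : K ≃+* K, σ x = x + n := by
  obtain ⟨σ, hσ⟩ := exists_ringEquiv_shift (R := R) x hx
  refine ⟨σ ^ n, ?_⟩
  induction n with
  | zero => simp
  | succ n ih =>
    rw [pow_succ', RingAut.mul_apply, ih, map_add, hσ, map_natCast]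
    push_cast
    ring

/-- Every `R`-automorphism of the algebraic closure of `R` in `K` extends to `K`. -/
theorem exists_ringEquiv_extending
    (f : algebraicClosure R K ≃ₐ[R] algebraicClosure R K) :
    ∃ σ : K ≃+* K, ∀ z : algebraicClosure R K, σ (z : K) = (f z : K) := by
  obtain ⟨ι, v, hv⟩ := exists_isTranscendenceBasis' (algebraicClosure R K) K
  obtain ⟨σ, hσ⟩ := exists_ringEquiv_of_transcendenceBasis (R := algebraicClosure R K) v hv
    (MvPolynomial.mapEquiv ι f.toRingEquiv)
  refine ⟨σ, fun z => ?_⟩
  have := hσ (C z)
  simp only [aeval_C, mapEquiv_apply, map_C] at this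
  exact this

/-- Every `R`-embedding into `K` of a subfield of the algebraic closure of `R` in `K` extends to an
automorphism of `K`. -/
theorem exists_ringEquiv_extending_algHom
    (E : IntermediateField R (algebraicClosure R K)) (τ : E →ₐ[R] K) :
    ∃ σ : K ≃+* K, ∀ z : E, σ (((z : algebraicClosure R K)) : K) = τ z := by
  have hK' : ∀ s : algebraicClosure R K,
      IsIntegral R s ∧ ((minpoly R s).map (algebraMap R K)).Splits :=
    fun s => ⟨Algebra.IsIntegral.isIntegral s, IsAlgClosed.splits _⟩
  obtain ⟨φ, hφ⟩ := IntermediateField.exists_algHom_of_splits hK' τ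
  have hmem : ∀ x : algebraicClosure R K, φ x ∈ (algebraicClosure R K).toSubalgebra := by
    intro x
    show φ x ∈ algebraicClosure R K
    rw [mem_algebraicClosure_iff]
    exact IsAlgebraic.algHom φ (Algebra.IsAlgebraic.isAlgebraic x)
  let φ' : algebraicClosure R K →ₐ[R] algebraicClosure R K :=
    AlgHom.codRestrict φ (algebraicClosure R K).toSubalgebra hmem
  have hbij : Function.Bijective φ' := Algebra.IsAlgebraic.algHom_bijective φ'
  obtain ⟨σ, hσ⟩ := exists_ringEquiv_extending (AlgEquiv.ofBijective φ' hbij)
  refine ⟨σ, fun z => ?_⟩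
  rw [hσ]
  show φ (z : algebraicClosure R K) = τ z
  rw [← hφ]
  rfl

end Aut

/-! ### Families with finite orbit -/

section Orbit

variable {R K : Type*} [Field R] [Field K] [Algebra R K] [IsAlgClosed K] [CharZero R]
variable {ι : Type*}

/-- The orbit of a family under all ring automorphisms of `K`. -/
def autOrbit (a : ι → K) : Set (ι → K) := {b | ∃ σ : K ≃+* K, b = fun i => σ (a i)}

theorem mem_autOrbit (a : ι → K) (σ : K ≃+* K) : (fun i => σ (a i)) ∈ autOrbit a := ⟨σ, rfl⟩

/-- A family with finite orbit consists of algebraic elements. -/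
theorem isAlgebraic_of_finite_autOrbit (a : ι → K) (hfin : (autOrbit a).Finite) (i : ι) :
    IsAlgebraic R (a i) := by
  by_contra htr
  have : CharZero K := charZero_of_injective_algebraMap (algebraMap R K).injective
  have hσ : ∀ n : ℕ, ∃ σ : K ≃+* K, σ (a i) = a i + n :=
    fun n => exists_ringEquiv_shift_nat (R := R) (a i) htr n
  choose σ hσ using hσ
  refine Set.infinite_of_injective_forall_mem (f := fun n : ℕ => fun j => σ n (a j)) ?_
    (fun n => mem_autOrbit a (σ n)) hfin
  intro n m hnm
  have h := congrFun hnm i
  simp only [hσ] at h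
  exact_mod_cast add_left_cancel h

variable (R) in
/-- The subfield of the algebraic closure of `R` in `K` generated by finitely many members of an
algebraic family has degree at most the size of the orbit. -/
theorem finrank_adjoin_le_of_finite_autOrbit (a : ι → algebraicClosure R K)
    (hfin : (autOrbit (fun i => (a i : K))).Finite) (S : Finset ι) :
    Module.finrank R (adjoin R ((fun i => a i) '' (S : Set ι))) ≤ hfin.toFinset.card := by
  classical
  set E : IntermediateField R (algebraicClosure R K) := adjoin R ((fun i => a i) '' (S : Set ι))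
    with hE
  have : Finite ((fun i => a i) '' (S : Set ι)) := (S.finite_toSet.image _).to_subtype
  have : FiniteDimensional R E :=
    finiteDimensional_adjoin fun x _ => Algebra.IsIntegral.isIntegral x
  have hσ : ∀ τ : E →ₐ[R] K, ∃ σ : K ≃+* K, ∀ z : E, σ (((z : algebraicClosure R K)) : K) = τ z :=
    fun τ => exists_ringEquiv_extending_algHom E τ
  choose σ hσ using hσ
  let Φ : (E →ₐ[R] K) → hfin.toFinset := fun τ =>
    ⟨fun i => σ τ (a i : K), hfin.mem_toFinset.mpr (mem_autOrbit _ (σ τ))⟩
  have hΦ : Function.Injective Φ := by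
    intro τ τ' h
    have h1 : ∀ i, σ τ (a i : K) = σ τ' (a i : K) := fun i => congrFun (Subtype.ext_iff.mp h) i
    apply adjoin_algHom_ext
    rintro x ⟨i, hi, rfl⟩
    have h2 := hσ τ ⟨a i, subset_adjoin _ _ ⟨i, hi, rfl⟩⟩
    have h3 := hσ τ' ⟨a i, subset_adjoin _ _ ⟨i, hi, rfl⟩⟩
    rw [← h2, ← h3]
    exact h1 i
  have hcard := Fintype.card_le_of_injective Φ hΦ
  rw [AlgHom.card R E K, Fintype.card_coe] at hcard
  exact hcard

variable (R) in
/-- An algebraic family with finite orbit generates a finite extension of `R`, of degree at most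
the size of the orbit. -/
theorem exists_finset_adjoin_eq_of_finite_autOrbit (a : ι → algebraicClosure R K)
    (hfin : (autOrbit (fun i => (a i : K))).Finite) :
    ∃ S : Finset ι, adjoin R (Set.range a) = adjoin R ((fun i => a i) '' (S : Set ι)) := by
  classical
  set adjS : Finset ι → IntermediateField R (algebraicClosure R K) :=
    fun S => adjoin R ((fun i => a i) '' (S : Set ι)) with hadjS
  have hfd : ∀ S, FiniteDimensional R (adjS S) := by
    intro S
    have : Finite ((fun i => a i) '' (S : Set ι)) := (S.finite_toSet.image _).to_subtype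
    exact finiteDimensional_adjoin fun x _ => Algebra.IsIntegral.isIntegral x
  have hle : ∀ S, Module.finrank R (adjS S) ≤ hfin.toFinset.card :=
    fun S => finrank_adjoin_le_of_finite_autOrbit R a hfin S
  -- a finite set of maximal degree
  obtain ⟨S0, hS0⟩ : ∃ S0 : Finset ι, ∀ S, Module.finrank R (adjS S) ≤ Module.finrank R (adjS S0) := by
    by_contra hcon
    push Not at hcon
    have : ∀ n : ℕ, ∃ S, n ≤ Module.finrank R (adjS S) := by
      intro n
      induction n with
      | zero => exact ⟨∅, Nat.zero_le _⟩
      | succ n ih =>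
        obtain ⟨S, hS⟩ := ih
        obtain ⟨S', hS'⟩ := hcon S
        exact ⟨S', by omega⟩
    obtain ⟨S, hS⟩ := this (hfin.toFinset.card + 1)
    have := hle S
    omega
  refine ⟨S0, le_antisymm ?_ (adjoin.mono R _ _ (Set.image_subset_range _ _))⟩
  rw [adjoin_le_iff]
  rintro x ⟨i, rfl⟩
  have hmono : adjS S0 ≤ adjS (insert i S0) := by
    apply adjoin.mono
    apply Set.image_mono
    exact_mod_cast Finset.subset_insert i S0
  have := hfd (insert i S0)
  have heq : adjS S0 = adjS (insert i S0) := eq_of_le_of_finrank_le hmono (hS0 _)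
  show a i ∈ adjS S0
  rw [heq]
  exact subset_adjoin _ _ ⟨i, by simp, rfl⟩

variable (R) in
theorem finiteDimensional_adjoin_of_finite_autOrbit (a : ι → algebraicClosure R K)
    (hfin : (autOrbit (fun i => (a i : K))).Finite) :
    FiniteDimensional R (adjoin R (Set.range a)) := by
  classical
  obtain ⟨S, hS⟩ := exists_finset_adjoin_eq_of_finite_autOrbit R a hfin
  rw [hS]
  have : Finite ((fun i => a i) '' (S : Set ι)) := (S.finite_toSet.image _).to_subtype
  exact finiteDimensional_adjoin fun x _ => Algebra.IsIntegral.isIntegral x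

end Orbit

end Fermat.Agent.S48x.DS0
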