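/-
P-S48 (Deligne-Serre), DS0 → Assembly glue (helper16): the integral eigen-data inside `ℚbar`
(`Assembly.EigenData N`) with the Rankin bound for all conjugates (`Assembly.RankinAll`), for the
data of the frozen statement S48, together with an embedding `ι : ℚbar → ℂ` matching them with
`qCoeff f p` and `ε p`.  These are the inputs `(ι, D, hα, hee)` of `Assembly.GlueC` and input (B).
-/
import Mathlib
import Fermat.Agent.S48x.DS0.Final
import Fermat.Agent.S48x.Assembly.GlueC

set_option autoImplicit false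

open UpperHalfPlane ModularFormClass CongruenceSubgroup
open scoped MatrixGroups

namespace Fermat.Agent.S48x.DS0

open Fermat.Agent.S48x.Assembly

variable {N : ℕ} [NeZero N]

/-- **(A) + (B) in `ℚbar`-language.** -/
theorem exists_eigenData (ε : DirichletCharacter ℂ N) (f : CuspForm (Gamma1 N) 1)
    (hf₁ : qCoeff f 1 = 1)
    (hT : ∀ p : ℕ, p.Prime → ¬ p ∣ N → ∀ n : ℕ,
        qCoeff f (p * n) + ε (p : ZMod N) * (if p ∣ n then qCoeff f (n / p) else 0) =
          qCoeff f p * qCoeff f n) :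
    ∃ (ι : Qb →+* ℂ) (D : EigenData N), RankinAll D ∧
      (∀ p : ℕ, p.Prime → ¬ p ∣ N → ι (D.α p) = qCoeff f p) ∧
      (∀ p : ℕ, p.Prime → ¬ p ∣ N → ι (D.ee p) = ε (p : ZMod N)) := by
  classical
  obtain ⟨hAint, -, K, hKfd, hKalg, hKa, hKε, hB⟩ := ds0 ε f hf₁ hT
  -- an embedding of `ℚbar`
  let ιa : Qb →ₐ[ℚ] ℂ := IsAlgClosed.lift
  let ι : Qb →+* ℂ := ιa.toRingHom
  have hιinj : Function.Injective ι := ι.injective
  have hεint : ∀ x : ZMod N, IsIntegral ℤ (ε x) := fun x => isIntegral_dirichlet ε x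
  -- preimages
  have hpre : ∀ z : ℂ, IsIntegral ℤ z → ∃ y : Qb, ι y = z := fun z hz =>
    mem_range_of_isIntegral ι hz
  let α : ℕ → Qb := fun p =>
    if h : p.Prime ∧ ¬ p ∣ N then (hpre (qCoeff f p) (hAint p h.1 h.2)).choose else 0
  let ee : ℕ → Qb := fun p => (hpre (ε (p : ZMod N)) (hεint _)).choose
  have hα : ∀ p : ℕ, p.Prime → ¬ p ∣ N → ι (α p) = qCoeff f p := by
    intro p hp hpN
    have h : p.Prime ∧ ¬ p ∣ N := ⟨hp, hpN⟩
    simp only [α, dif_pos h]
    exact (hpre (qCoeff f p) (hAint p h.1 h.2)).choose_spec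
  have hee : ∀ p : ℕ, ι (ee p) = ε (p : ZMod N) := fun p =>
    (hpre (ε (p : ZMod N)) (hεint _)).choose_spec
  -- the number field inside `ℚbar`
  let KQ : IntermediateField ℚ Qb := K.comap ιa
  have hmemKQ : ∀ y : Qb, y ∈ KQ ↔ ι y ∈ K := fun y => Iff.rfl
  let resA : KQ →ₐ[ℚ] K :=
    (ιa.comp KQ.val).codRestrict K.toSubalgebra fun y => (hmemKQ y).mp y.2
  have hres_inj : Function.Injective resA.toLinearMap := fun x y h =>
    Subtype.ext (hιinj (congrArg Subtype.val h))
  have hKQfd : FiniteDimensional ℚ KQ := FiniteDimensional.of_injective resA.toLinearMap hres_inj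
  -- every element of `K` comes from `KQ`
  have hsurj : ∀ x : K, ∃ y : KQ, ι (y : Qb) = (x : ℂ) := by
    intro x
    have hx : IsAlgebraic ℚ (x : ℂ) := hKalg _ x.2
    let _ : Algebra Qb ℂ := ι.toAlgebra
    have hx' : IsIntegral Qb (x : ℂ) := by
      have : IsIntegral ℚ (x : ℂ) := hx.isIntegral
      exact this.tower_top
    have hdeg := IsAlgClosed.degree_eq_one_of_irreducible Qb (minpoly.irreducible hx')
    obtain ⟨y, hy⟩ := minpoly.mem_range_of_degree_eq_one Qb (x : ℂ) hdeg
    have hy' : ι y = (x : ℂ) := hy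
    exact ⟨⟨y, (hmemKQ y).mpr (by rw [hy']; exact x.2)⟩, hy'⟩
  let D : EigenData N :=
    { α := α
      ee := ee
      α_int := fun p hp hpN => isIntegral_of_map ι (by rw [hα p hp hpN]; exact hAint p hp hpN)
      ee_int := fun p _ _ => isIntegral_of_map ι (by rw [hee p]; exact hεint _)
      K := KQ
      K_fin := hKQfd
      α_mem := fun p hp hpN => (hmemKQ _).mpr (by rw [hα p hp hpN]; exact hKa p hp hpN)
      ee_mem := fun p _ _ => (hmemKQ _).mpr (by rw [hee p]; exact hKε _)
      ee_fin := by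
        refine Set.Finite.subset
          ((Set.finite_range fun x : ZMod N => ε x).preimage hιinj.injOn) ?_
        rintro x ⟨p, -, -, rfl⟩
        exact ⟨(p : ZMod N), (hee p).symm⟩ }
  refine ⟨ι, D, ?_, hα, fun p _ _ => hee p⟩
  -- Rankin for all conjugates
  intro τ
  choose g hg using hsurj
  have hg_add : ∀ x y : K, g (x + y) = g x + g y := fun x y =>
    Subtype.ext (hιinj (by
      rw [hg]
      show ((x + y : K) : ℂ) = ι ((g x : Qb) + (g y : Qb))
      rw [map_add, hg, hg]
      rfl))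
  have hg_mul : ∀ x y : K, g (x * y) = g x * g y := fun x y =>
    Subtype.ext (hιinj (by
      rw [hg]
      show ((x * y : K) : ℂ) = ι ((g x : Qb) * (g y : Qb))
      rw [map_mul, hg, hg]
      rfl))
  have hg_one : g 1 = 1 := Subtype.ext (hιinj (by
    rw [hg]
    show ((1 : K) : ℂ) = ι ((1 : KQ) : Qb)
    simp))
  have hg_zero : g 0 = 0 := Subtype.ext (hιinj (by
    rw [hg]
    show ((0 : K) : ℂ) = ι ((0 : KQ) : Qb)
    simp))
  let τK : K →+* ℂ :=
    { toFun := fun x => τ (g x : Qb)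
      map_one' := by rw [hg_one]; simp
      map_mul' := fun x y => by rw [hg_mul]; simp
      map_zero' := by rw [hg_zero]; simp
      map_add' := fun x y => by rw [hg_add]; simp }
  refine hB τK (fun p => τ (D.α p)) fun p hp hpN => ?_
  refine ⟨⟨qCoeff f p, hKa p hp hpN⟩, rfl, ?_⟩
  show τ (g ⟨qCoeff f p, hKa p hp hpN⟩ : Qb) = τ (α p)
  congr 1
  apply hιinj
  rw [hg, hα p hp hpN]

end Fermat.Agent.S48x.DS0
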