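/-
P-S48 (Deligne-Serre), DS0 glue (helper16): eigenvectors of a family of linear operators with
pairwise distinct eigen-systems are linearly independent.  Mathlib only.
-/
import Mathlib

set_option autoImplicit false

namespace Fermat.Agent.S48x.DS0

/-- Eigenvectors `v i ≠ 0` of a family of operators `T p`, with eigen-systems `ev i` pairwise
distinct, are linearly independent (no commutativity needed). -/
theorem linearIndependent_of_eigensystems {K V ι P : Type*} [Field K] [AddCommGroup V]
    [Module K V] (T : P → Module.End K V) (v : ι → V) (ev : ι → P → K)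
    (hv : ∀ i, v i ≠ 0) (heig : ∀ i p, T p (v i) = ev i p • v i)
    (hdist : ∀ i j, i ≠ j → ∃ p, ev i p ≠ ev j p) : LinearIndependent K v := by
  classical
  rw [linearIndependent_iff']
  intro s
  induction s using Finset.induction_on with
  | empty => intro g _ i hi; exact absurd hi (Finset.notMem_empty i)
  | insert a t hat ih =>
    intro g hg
    rw [Finset.sum_insert hat] at hg
    -- apply `T p - ev a p`
    have key : ∀ p, ∑ i ∈ t, (g i * (ev i p - ev a p)) • v i = 0 := by
      intro p
      have h1 := congrArg (T p) hg
      rw [map_add, map_smul, map_sum, map_zero, heig] at h1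
      have h2 : ∑ i ∈ t, T p (g i • v i) = ∑ i ∈ t, (g i * ev i p) • v i := by
        refine Finset.sum_congr rfl fun i _ => ?_
        rw [map_smul, heig, smul_smul]
      rw [h2] at h1
      have h3 : ev a p • (g a • v a + ∑ i ∈ t, g i • v i) = 0 := by rw [hg, smul_zero]
      rw [smul_add, Finset.smul_sum] at h3
      have h4 : ∑ i ∈ t, (g i * (ev i p - ev a p)) • v i =
          (g a • ev a p • v a + ∑ i ∈ t, (g i * ev i p) • v i) -
            (ev a p • g a • v a + ∑ i ∈ t, ev a p • g i • v i) := by
        rw [smul_comm (g a) (ev a p) (v a), add_sub_add_left_eq_sub, ← Finset.sum_sub_distrib]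
        refine Finset.sum_congr rfl fun i _ => ?_
        rw [smul_smul, ← sub_smul]
        congr 1
        ring
      rw [h4, h1, h3, sub_zero]
    have hzero : ∀ i ∈ t, g i = 0 := by
      intro i hi
      have hia : i ≠ a := fun h => hat (h ▸ hi)
      obtain ⟨p, hp⟩ := hdist i a hia
      have := ih (fun j => g j * (ev j p - ev a p)) (key p) i hi
      rcases mul_eq_zero.mp this with h | h
      · exact h
      · exact absurd (sub_eq_zero.mp h) hp
    intro i hi
    rcases Finset.mem_insert.mp hi with rfl | hi
    · have h5 : ∑ j ∈ t, g j • v j = 0 :=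
        Finset.sum_eq_zero fun j hj => by rw [hzero j hj, zero_smul]
      rw [h5, add_zero] at hg
      exact (smul_eq_zero.mp hg).resolve_right (hv i)
    · exact hzero i hi

end Fermat.Agent.S48x.DS0
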