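/-
P-S48 (Deligne-Serre), DS0 glue (helper16): the formal Hecke operators on sequences and the
finite-orbit theorem.

Abstract setting: `V` a finite dimensional complex vector space with a linear map `q` to sequences
(in the application `V = S₁(Γ₁(N))`, `q` = `q`-expansion) which is stable under all automorphisms of
`ℂ` acting on sequences.  If `v₀` is a normalised formal eigenvector of the operators
`s ↦ (n ↦ s (p n) + χ p · [p ∣ n] s (n / p))` for `p ∈ P`, and the family `χ` has finite orbit under
`Aut ℂ`, then the family `(a_p)_{p ∈ P}, χ` has finite orbit under `Aut ℂ`: conjugates with the same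
`χ` and distinct eigen-systems are linearly independent.
-/
import Mathlib
import Fermat.Agent.S48x.DS0.Indep
import Fermat.Agent.S48x.DS0.AutC

set_option autoImplicit false

namespace Fermat.Agent.S48x.DS0

/-- The formal Hecke operator `U_p + c V_p` on sequences. -/
noncomputable def formalT (c : ℂ) (p : ℕ) : Module.End ℂ (ℕ → ℂ) where
  toFun s n := s (p * n) + c * (if p ∣ n then s (n / p) else 0)
  map_add' s t := by
    funext n
    simp only [Pi.add_apply]
    split_ifs <;> ring
  map_smul' a s := by
    funext n
    simp only [Pi.smul_apply, smul_eq_mul, RingHom.id_apply]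
    split_ifs <;> ring

theorem formalT_apply (c : ℂ) (p : ℕ) (s : ℕ → ℂ) (n : ℕ) :
    formalT c p s n = s (p * n) + c * (if p ∣ n then s (n / p) else 0) := rfl

/-- **Finite orbit.** -/
theorem finite_autOrbit_of_eigen {V : Type*} [AddCommGroup V] [Module ℂ V]
    [FiniteDimensional ℂ V] (q : V →ₗ[ℂ] (ℕ → ℂ))
    (hconj : ∀ (σ : ℂ ≃+* ℂ) (v : V), ∃ w : V, ∀ n, q w n = σ (q v n))
    (P : Set ℕ) (χ : ℕ → ℂ) (hχ : (autOrbit χ).Finite)
    (v₀ : V) (h1 : q v₀ 1 = 1)
    (hT : ∀ p ∈ P, ∀ n, q v₀ (p * n) + χ p * (if p ∣ n then q v₀ (n / p) else 0) =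
      q v₀ p * q v₀ n) :
    (autOrbit (Sum.elim (fun p : P => q v₀ p) χ)).Finite := by
  classical
  set c : P ⊕ ℕ → ℂ := Sum.elim (fun p : P => q v₀ p) χ with hc
  set r : (P ⊕ ℕ → ℂ) → (ℕ → ℂ) := fun b n => b (Sum.inr n) with hr
  apply Set.Finite.of_finite_fibers r
  · apply hχ.subset
    rintro _ ⟨b, ⟨σ, rfl⟩, rfl⟩
    exact ⟨σ, rfl⟩
  · intro χ' _
    by_contra hinf
    have hinf : (autOrbit c ∩ r ⁻¹' {χ'}).Infinite := hinf
    obtain ⟨t, htsub, htcard⟩ := hinf.exists_subset_card_eq (Module.finrank ℂ V + 1)
    have hσ : ∀ b : t, ∃ σ : ℂ ≃+* ℂ, (b : P ⊕ ℕ → ℂ) = fun i => σ (c i) :=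
      fun b => (htsub b.2).1
    choose σ hσ using hσ
    have hw : ∀ b : t, ∃ w : V, ∀ n, q w n = σ b (q v₀ n) := fun b => hconj (σ b) v₀
    choose w hw using hw
    have hχ' : ∀ (b : t) (n : ℕ), σ b (χ n) = χ' n := by
      intro b n
      have h2 : r (b : P ⊕ ℕ → ℂ) = χ' := (htsub b.2).2
      have h3 := congrFun h2 n
      rw [hσ b] at h3
      exact h3
    have hli : LinearIndependent ℂ (fun b : t => q (w b)) := by
      apply linearIndependent_of_eigensystems (fun p : P => formalT (χ' p) p) _
        (fun b p => σ b (q v₀ p))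
      · intro b h0
        have := congrFun h0 1
        rw [hw, h1, map_one] at this
        exact one_ne_zero this
      · intro b p
        funext n
        simp only [formalT_apply, Pi.smul_apply, smul_eq_mul, hw]
        rw [← hχ' b p]
        have := congrArg (σ b) (hT p p.2 n)
        simp only [map_add, map_mul] at this
        rw [← this]
        split_ifs <;> simp
      · intro b b' hbb'
        by_contra hall
        push Not at hall
        apply hbb'
        apply Subtype.ext
        funext i
        rw [hσ b, hσ b']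
        cases i with
        | inl p => exact hall p
        | inr n =>
          show σ b (χ n) = σ b' (χ n)
          rw [hχ', hχ']
    have hli' : LinearIndependent ℂ w := LinearIndependent.of_comp q hli
    have := hli'.fintype_card_le_finrank
    rw [Fintype.card_coe, htcard] at this
    omega

end Fermat.Agent.S48x.DS0
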